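import Fermat.Agent.S45.Top.Lvl
import Fermat.Agent.S58.Main
import Fermat.Agent.S44
import Fermat.Agent.RIB.Wrap.Final
import Fermat.Agent.MAZ.End.Gal0
import Fermat.Agent.HW.NEVarChange

/-!
# S45 / TOP-B : from `P.freyCurve.IsModular` to a contradiction, given the statement `LvlStmt`

`LvlStmt` (`S45/Top/Lvl.lean`) : a semistable integral model which is modular of SOME level `N ≠ 0` is modular of its
conductor level.

* `apOfModel_eq_of_models` : `a_ℓ` does not depend on the integral model (at primes good for both models).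
* `freyCurveInt` is semistable, `Δ ≠ 0`, its conductor level is a conductor level of `P`.
* `false_of_lvl` : `LvlStmt → P.freyCurve.IsModular → irreducible → False` (S44 and `RIB.false_of_modular`).
-/

set_option autoImplicit false

namespace Fermat.Agent.S45

open WeierstrassCurve ModularFormClass CongruenceSubgroup

local notation "Qbar" => AlgebraicClosure ℚ
local notation "GQ" => (AlgebraicClosure ℚ ≃ₐ[ℚ] AlgebraicClosure ℚ)

/-- `a_ℓ` is independent of the integral model. -/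
theorem apOfModel_eq_of_models {E : WeierstrassCurve ℚ} {W W' : WeierstrassCurve ℤ}
    (hW : W.IsIntegralModelOf E) (hW' : W'.IsIntegralModelOf E) (hΔ0 : W.Δ ≠ 0)
    {ℓ : ℕ} (hℓ : ℓ.Prime) (hg : W.IsGoodPrimeFor ℓ) (hg' : W'.IsGoodPrimeFor ℓ) :
    W.apOfModel ℓ = W'.apOfModel ℓ := by
  classical
  obtain ⟨C, hC⟩ := hW
  obtain ⟨C', hC'⟩ := hW'
  obtain ⟨e, he⟩ := HW.exists_addEquiv_of_variableChange (K := Qbar) C hC
  obtain ⟨e', he'⟩ := HW.exists_addEquiv_of_variableChange (K := Qbar) C' hC'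
  obtain ⟨A, τ, hA, hτ⟩ := Fermat.Agent.S54.exists_isFrobeniusAt hℓ
  by_contra hne
  set d : ℤ := W.apOfModel ℓ - W'.apOfModel ℓ with hd
  have hd0 : d ≠ 0 := sub_ne_zero.2 hne
  -- an odd prime `lam ≠ ℓ` not dividing `d`
  obtain ⟨lam, hlamge, hlam⟩ := Nat.exists_infinite_primes (d.natAbs + ℓ + 3)
  have hlam2 : lam ≠ 2 := by omega
  have hlamℓ : lam ≠ ℓ := by omega
  have hodd : Odd lam := hlam.odd_of_ne_two hlam2
  have hcop : Nat.Coprime lam ℓ := (Nat.coprime_primes hlam hℓ).2 hlamℓ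
  have hnd : ¬ (lam : ℤ) ∣ d := by
    intro h
    have h1 : lam ∣ d.natAbs := Int.natCast_dvd.1 h
    have h2 := Nat.le_of_dvd (Int.natAbs_pos.2 hd0) h1
    omega
  obtain ⟨Q, hQ⟩ := S58.exists_addOrderOf_eq W hΔ0 hodd
  have hQlam : lam • Q = 0 := by rw [← hQ]; exact addOrderOf_nsmul_eq_zero Q
  have h1 := S58.frobenius_relation_odd W hℓ hg hodd hcop A hA τ hτ Q hQlam
  -- transport to `W'`
  set f : S58.EQ W ≃+ S58.EQ W' := e.symm.trans e' with hf
  have hfσ : ∀ (σ : GQ) (x : S58.EQ W), f (σ • x) = σ • f x := by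
    intro σ x
    obtain ⟨y, rfl⟩ := e.surjective x
    rw [← he, hf]
    simp only [AddEquiv.trans_apply, AddEquiv.symm_apply_apply]
    exact he' σ y
  have h2 := S58.frobenius_relation_odd W' hℓ hg' hodd hcop A hA τ hτ (f Q)
    (by rw [← map_nsmul, hQlam, map_zero])
  have h3 : f (τ • τ • Q - W'.apOfModel ℓ • τ • Q + (ℓ : ℤ) • Q) = 0 := by
    rw [map_add, map_sub, map_zsmul, map_zsmul, hfσ, hfσ]
    exact h2
  have h4 : τ • τ • Q - W'.apOfModel ℓ • τ • Q + (ℓ : ℤ) • Q = 0 :=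
    (EmbeddingLike.map_eq_zero_iff (f := f)).1 h3
  have h5 : d • τ • Q = 0 := by
    rw [hd, sub_smul]
    have : W.apOfModel ℓ • τ • Q - W'.apOfModel ℓ • τ • Q
        = (τ • τ • Q - W'.apOfModel ℓ • τ • Q + (ℓ : ℤ) • Q)
          - (τ • τ • Q - W.apOfModel ℓ • τ • Q + (ℓ : ℤ) • Q) := by abel
    rw [this, h1, h4, sub_zero]
  have h6 : d • Q = 0 := by
    have h7 : τ • (d • Q) = 0 := by
      have h9 := map_zsmul (DistribSMul.toAddMonoidHom (S58.EQ W) τ) d Q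
      exact h9.trans h5
    have h10 := congrArg (fun x => τ⁻¹ • x) h7
    simp only [inv_smul_smul] at h10
    exact h10.trans (smul_zero (A := S58.EQ W) τ⁻¹)
  have h8 : (addOrderOf Q : ℤ) ∣ d := addOrderOf_dvd_iff_zsmul_eq_zero.2 h6
  rw [hQ] at h8
  exact hnd h8

theorem freyCurveInt_isIntegralModelOf (P : FreyPackage) :
    P.freyCurveInt.IsIntegralModelOf P.freyCurve :=
  ⟨1, by rw [one_smul, MAZ.End.freyCurveInt_map]⟩

theorem freyCurveInt_Δ_ne_zero (P : FreyPackage) : P.freyCurveInt.Δ ≠ 0 :=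
  S44.model_Δ_ne_zero P (freyCurveInt_isIntegralModelOf P)

theorem freyCurveInt_c₄ (P : FreyPackage) :
    P.freyCurveInt.c₄ = (P.a ^ P.p) ^ 2 + P.a ^ P.p * P.b ^ P.p + (P.b ^ P.p) ^ 2 := by
  obtain ⟨n, hn⟩ := S13.frey_a2_int P
  obtain ⟨m, hm⟩ := MAZ.End.frey_a4_int P
  have h2 : P.freyCurveInt.a₂ = n := by
    simp only [FreyPackage.freyCurveInt, hn]
    exact Int.mul_ediv_cancel_left _ (by norm_num)
  have h4 : P.freyCurveInt.a₄ = m := by
    simp only [FreyPackage.freyCurveInt, hm]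
    exact Int.mul_ediv_cancel_left _ (by norm_num)
  have h1 : P.freyCurveInt.a₁ = 1 := rfl
  have h3 : P.freyCurveInt.a₃ = 0 := rfl
  simp only [WeierstrassCurve.c₄, WeierstrassCurve.b₂, WeierstrassCurve.b₄, h1, h2, h3, h4]
  generalize P.a ^ P.p = α at *
  generalize P.b ^ P.p = β at *
  have hβ : β = 4 * n + 1 + α := by linarith
  subst hβ
  linear_combination 3 * hm

theorem dvd_abc_of_dvd_disc (P : FreyPackage) {ℓ : ℕ} (hℓ : ℓ.Prime)
    (h : (ℓ : ℤ) ∣ P.freyCurveInt.Δ) : (ℓ : ℤ) ∣ P.a * P.b * P.c := by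
  by_contra hn
  exact MAZ.End.isGoodPrimeFor_frey P hℓ hn h

theorem not_dvd_of_gcd_eq_one {x y : ℤ} (h : gcd x y = 1) {ℓ : ℕ} (hℓ : ℓ.Prime)
    (hx : (ℓ : ℤ) ∣ x) : ¬ (ℓ : ℤ) ∣ y := by
  intro hy
  have h1 : (ℓ : ℤ) ∣ gcd x y := dvd_gcd hx hy
  rw [h] at h1
  exact (Nat.prime_iff_prime_int.1 hℓ).not_isUnit (isUnit_of_dvd_one h1)

theorem freyCurveInt_isSemistableModel (P : FreyPackage) : P.freyCurveInt.IsSemistableModel := by
  intro ℓ hℓ hΔ hc4
  have hpr : Prime (ℓ : ℤ) := Nat.prime_iff_prime_int.1 hℓ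
  rw [freyCurveInt_c₄] at hc4
  have habc := dvd_abc_of_dvd_disc P hℓ hΔ
  rcases hpr.dvd_or_dvd habc with hab | hc
  · rcases hpr.dvd_or_dvd hab with ha | hb
    · -- `ℓ ∣ a`
      have hb : ¬ (ℓ : ℤ) ∣ P.b := not_dvd_of_gcd_eq_one P.hgcdab hℓ ha
      have ha' : (ℓ : ℤ) ∣ P.a ^ P.p := dvd_pow ha P.hp0
      have h1 : (ℓ : ℤ) ∣ (P.b ^ P.p) ^ 2 := by
        have h2 : (ℓ : ℤ) ∣ (P.a ^ P.p) ^ 2 + P.a ^ P.p * P.b ^ P.p :=
          dvd_add (dvd_pow ha' two_ne_zero) (Dvd.dvd.mul_right ha' _)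
        exact (dvd_add_right h2).1 hc4
      exact hb (hpr.dvd_of_dvd_pow (hpr.dvd_of_dvd_pow h1))
    · -- `ℓ ∣ b`
      have ha : ¬ (ℓ : ℤ) ∣ P.a := by
        refine not_dvd_of_gcd_eq_one (x := P.b) ?_ hℓ hb
        rw [gcd_comm]; exact P.hgcdab
      have hb' : (ℓ : ℤ) ∣ P.b ^ P.p := dvd_pow hb P.hp0
      have h1 : (ℓ : ℤ) ∣ (P.a ^ P.p) ^ 2 := by
        have h2 : (ℓ : ℤ) ∣ P.a ^ P.p * P.b ^ P.p + (P.b ^ P.p) ^ 2 :=
          dvd_add (Dvd.dvd.mul_left hb' _) (dvd_pow hb' two_ne_zero)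
        rw [add_assoc] at hc4
        exact (dvd_add_left h2).1 hc4
      exact ha (hpr.dvd_of_dvd_pow (hpr.dvd_of_dvd_pow h1))
  · -- `ℓ ∣ c`
    have hb : ¬ (ℓ : ℤ) ∣ P.b := by
      refine not_dvd_of_gcd_eq_one (x := P.c) ?_ hℓ hc
      rw [gcd_comm]; exact P.hgcdbc
    have hc' : (ℓ : ℤ) ∣ P.c ^ P.p := dvd_pow hc P.hp0
    have h1 : (ℓ : ℤ) ∣ (P.b ^ P.p) ^ 2 := by
      have h2 : (P.a ^ P.p) ^ 2 + P.a ^ P.p * P.b ^ P.p + (P.b ^ P.p) ^ 2
          = P.c ^ P.p * P.a ^ P.p + (P.b ^ P.p) ^ 2 := by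
        rw [← P.hFLT]; ring
      rw [h2] at hc4
      exact (dvd_add_right (Dvd.dvd.mul_right hc' _)).1 hc4
    exact hb (hpr.dvd_of_dvd_pow (hpr.dvd_of_dvd_pow h1))

theorem isConductorLevel_conductorLevel (P : FreyPackage) :
    P.IsConductorLevel P.freyCurveInt.conductorLevel :=
  ⟨conductorLevel_pos _, squarefree_conductorLevel _, fun _ hq hqN =>
    dvd_abc_of_dvd_disc P hq
      ((prime_dvd_conductorLevel_iff _ (freyCurveInt_Δ_ne_zero P) hq).1 hqN)⟩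

/-- modularity passes from any integral model to any other one (same level). -/
theorem isModularModelOfLevel_of_models {E : WeierstrassCurve ℚ} {W W' : WeierstrassCurve ℤ}
    (hW : W.IsIntegralModelOf E) (hW' : W'.IsIntegralModelOf E) (hΔ0 : W.Δ ≠ 0) (hΔ0' : W'.Δ ≠ 0)
    {N : ℕ} (hN0 : N ≠ 0) (h : W'.IsModularModelOfLevel N) : W.IsModularModelOfLevel N := by
  have : NeZero N := ⟨hN0⟩
  obtain ⟨f, hf, hfa⟩ := h
  refine ⟨f, hf, fun ℓ hℓ hgood hℓN => ?_⟩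
  refine S58.qCoeff_eq_apOfModel W hΔ0 hf
    (N.primeFactors ∪ W.Δ.natAbs.primeFactors ∪ W'.Δ.natAbs.primeFactors) ?_ hℓ hgood hℓN
  intro r hr hrS
  simp only [Finset.mem_union, not_or] at hrS
  obtain ⟨⟨h1, h2⟩, h3⟩ := hrS
  have hrN : ¬ r ∣ N := fun hd => h1 (Nat.mem_primeFactors.2 ⟨hr, hd, hN0⟩)
  have hrW : W.IsGoodPrimeFor r := fun hd =>
    h2 (Nat.mem_primeFactors.2 ⟨hr, Int.natCast_dvd.1 hd, Int.natAbs_ne_zero.2 hΔ0⟩)
  have hrW' : W'.IsGoodPrimeFor r := fun hd =>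
    h3 (Nat.mem_primeFactors.2 ⟨hr, Int.natCast_dvd.1 hd, Int.natAbs_ne_zero.2 hΔ0'⟩)
  rw [hfa r hr hrW' hrN, apOfModel_eq_of_models hW hW' hΔ0 hr hrW hrW']

/-- raising the level. -/
theorem isModularModelOfLevel_of_dvd {W : WeierstrassCurve ℤ} {N R : ℕ} (hR0 : R ≠ 0) (h : N ∣ R)
    (hN : W.IsModularModelOfLevel N) : W.IsModularModelOfLevel R := by
  have : NeZero R := ⟨hR0⟩
  have : NeZero N := ⟨fun h0 => hR0 (Nat.eq_zero_of_zero_dvd (h0 ▸ h))⟩
  obtain ⟨f, hf, hfa⟩ := hN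
  obtain ⟨g, hg, hga⟩ := S58.exists_eigenform_of_dvd h hf
  exact ⟨g, hg, fun ℓ hℓ hgood hℓR => by
    rw [hga ℓ hℓ hℓR]; exact hfa ℓ hℓ hgood (fun hd => hℓR (hd.trans h))⟩

/-- exact modularity gives residual modularity. -/
theorem modularRepOfLevel_of_isModularModelOfLevel (P : FreyPackage) {W : WeierstrassCurve ℤ}
    (hW : W.IsIntegralModelOf P.freyCurve) {N : ℕ} (h : W.IsModularModelOfLevel N) :
    P.ModularRepOfLevel N := by
  obtain ⟨f, hf, hfa⟩ := h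
  obtain ⟨𝔪, hmax, hmem⟩ := FLTPrelim.exists_maximalIdeal_natCast_prime_mem P.pp
  refine ⟨f, W, 𝔪, hf, hW, hmax, hmem, fun ℓ hℓ hgood hℓN _ =>
    ⟨((W.apOfModel ℓ : ℤ) : integralClosure ℤ ℂ), ?_, ?_⟩⟩
  · rw [hfa ℓ hℓ hgood hℓN]; simp
  · rw [sub_self]; exact 𝔪.zero_mem

/-- the Frey curve is modular of its conductor level. -/
theorem frey_conductor_of_lvl (hL : LvlStmt) (P : FreyPackage) (hmod : P.freyCurve.IsModular) :
    P.freyCurveInt.IsModularModelOfLevel P.freyCurveInt.conductorLevel := by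
  obtain ⟨W', hW', N, hN, hmodN⟩ := hmod
  have hΔ0 := freyCurveInt_Δ_ne_zero P
  have h1 : P.freyCurveInt.IsModularModelOfLevel N :=
    isModularModelOfLevel_of_models (freyCurveInt_isIntegralModelOf P) hW' hΔ0
      (S44.model_Δ_ne_zero P hW') hN.ne' hmodN
  exact hL _ N hN.ne' hΔ0 (freyCurveInt_isSemistableModel P) h1

/-- **S45 from `LvlStmt`** : the hypotheses are contradictory. -/
theorem false_of_lvl (hL : LvlStmt) (P : FreyPackage) (hmod : P.freyCurve.IsModular)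
    (hirr : WeierstrassCurve.Affine.Point.GaloisRepIsIrreducible (K := AlgebraicClosure ℚ) ℚ
      P.freyCurve P.p) : False := by
  have hcond := isConductorLevel_conductorLevel P
  have hrep : P.ModularRepOfLevel P.freyCurveInt.conductorLevel :=
    modularRepOfLevel_of_isModularModelOfLevel P (freyCurveInt_isIntegralModelOf P)
      (frey_conductor_of_lvl hL P hmod)
  by_cases hpN : P.p ∣ P.freyCurveInt.conductorLevel
  · obtain ⟨M, hMN, hpM, hmodM⟩ := Fermat.Agent.S44.result P hcond hpN hirr hrep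
    exact RIB.false_of_modular P (hcond.of_dvd hMN (Nat.pos_of_dvd_of_pos hMN hcond.pos)) hpM hirr
      hmodM
  · exact RIB.false_of_modular P hcond hpN hirr hrep

/-- **S45 from `KumK`**. -/
theorem false_of_kumK (hK : KumK) (P : FreyPackage) (hmod : P.freyCurve.IsModular)
    (hirr : WeierstrassCurve.Affine.Point.GaloisRepIsIrreducible (K := AlgebraicClosure ℚ) ℚ
      P.freyCurve P.p) : False :=
  false_of_lvl (lvlStmt_of_kumK hK) P hmod hirr

end Fermat.Agent.S45
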