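import Fermat.Agent.S45.Top.S36K
import Fermat.Agent.S58.Main
import Fermat.Agent.S35

/-!
# S45 / Top / Cond : a semistable curve which is modular of ANY level is modular of its conductor level

Copy of `S58.main`; the hypotheses `N` cube-free, `p² ∤ N`, `W[p]` irreducible are replaced by the geometric interface
`Geo36 M₁ q lam` at EVERY level `M₁` divisible by `q` (the auxiliary prime `lam` is chosen `≠ q`, odd).
-/

set_option autoImplicit false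
set_option linter.unusedVariables false

namespace Fermat.Agent.S45

open Polynomial
open CuspForm CuspForm.IsNewform WeierstrassCurve
open Fermat.Agent.GAL Fermat.Agent.GAL.PC IsLocalRing ModularFormClass
open Fermat.Agent.S58

local notation "Qbar" => AlgebraicClosure ℚ
local notation "GQ" => (AlgebraicClosure ℚ ≃ₐ[ℚ] AlgebraicClosure ℚ)

/-- the geometric interface at every level divisible by `q` -/
def GeoAll : Prop :=
  ∀ (M₁ q p : ℕ) [NeZero M₁] [NeZero q], q.Prime → p.Prime → q ≠ p → q ∣ M₁ → S36.Top.Geo36 M₁ q p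

section Ctx

variable {W : WeierstrassCurve ℤ} {N : ℕ} {M : ℕ} [NeZero M]
  {g : CuspForm (CongruenceSubgroup.Gamma0 M) 2}

/-- the level `M` of the newform is squarefree. -/
theorem not_sq_dvd_level_of_geo (hGeo : GeoAll) (hΔ0 : W.Δ ≠ 0) (hss : W.IsSemistableModel)
    (hN0 : N ≠ 0) (hbad : ∀ ℓ : ℕ, ℓ.Prime → (ℓ : ℤ) ∣ W.Δ → ℓ ∣ N) (hMN : M ∣ N) (hg : g.IsNewform)
    (hga : ∀ ℓ : ℕ, ℓ.Prime → ¬ ℓ ∣ N → qCoeff g ℓ = (W.apOfModel ℓ : ℂ))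
    {q : ℕ} (hq : q.Prime) : ¬ q ^ 2 ∣ M := by
  intro hq2
  obtain ⟨lam, hlam, hlam2, hne⟩ := exists_odd_prime_ne q
  have : Fact lam.Prime := ⟨hlam⟩
  set S := bigSet N lam with hS
  have hlamS : lam ∈ S := by simp [hS, bigSet]
  have hMS : ∀ r : ℕ, r.Prime → r ∣ M → r ∈ S := fun r hr hrM => by
    rw [hS, bigSet, Finset.mem_insert]
    exact Or.inr (Nat.mem_primeFactors.2 ⟨hr, hrM.trans hMN, hN0⟩)
  have hchig : ∀ (ℓ : ℕ) (hℓ : ℓ.Prime) (hℓM : ¬ ℓ ∣ M) (hℓS : ℓ ∉ (↑S : Set ℕ)),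
      EigenChar.eigenHom hg.1 (↑S : Set ℕ) (CuspForm.heckeAlgebra.T hℓ hℓM hℓS) = qCoeff g ℓ :=
    fun ℓ hℓ hℓM hℓS => EigenChar.eigenHom_T hg.1 hℓ hℓM hℓS
  obtain ⟨iota, hiota⟩ := exists_iota (↑S : Set ℕ) (EigenChar.eigenHom hg.1 (↑S : Set ℕ))
    (fun ℓ => W.apOfModel ℓ) (fun r hr hrM => by exact_mod_cast hMS r hr hrM)
    (fun ℓ hℓ hℓM hℓS => by
      rw [hchig, hga ℓ hℓ (not_dvd_of_notMem_bigSet hN0 hℓ hℓS)]) ℤ_[lam]
  obtain ⟨O'', i1, i2, i3, i4, i5, i6, i7, i8, i9, -, ρ, hρ1, hρ2⟩ :=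
    s36K_of_geo (fun M₁ q p _ _ h1 h2 h3 h4 => hGeo M₁ q p h1 h2 h3 h4) hg lam S ℤ_[lam]
      (natCast_mem_maximalIdeal_padicInt lam) _ hchig iota hlamS hMS
  have hlamT : (lam : O'') ∈ maximalIdeal O'' :=
    natCast_mem_of_isLocalHom (natCast_mem_maximalIdeal_padicInt lam)
  have hatt : Attached W S ρ := by
    intro ℓ hℓ hℓS A hA σ hσ
    have hℓM : ¬ ℓ ∣ M := fun hd => hℓS (hMS ℓ hℓ hd)
    rw [hρ1 ℓ hℓ hℓM (by exact_mod_cast hℓS) A hA σ hσ, hiota, map_intCast]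
  exact hρ2 q hq (Ne.symm hne) hq2
    (isUnipotentOnInertiaAt hΔ0 hss hlam hlam2 hlamT (badSet_subset_bigSet hN0 hbad lam) hatt hq
      (Ne.symm hne))

end Ctx

/-- the case where all the bad primes divide the level. -/
theorem conductorLevel_of_bad (hGeo : GeoAll) (W : WeierstrassCurve ℤ) (hΔ0 : W.Δ ≠ 0)
    (hss : W.IsSemistableModel) (N : ℕ) (hN0 : N ≠ 0)
    (hN : W.IsModularModelOfLevel N) (hbad : ∀ ℓ : ℕ, ℓ.Prime → (ℓ : ℤ) ∣ W.Δ → ℓ ∣ N) :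
    W.IsModularModelOfLevel W.conductorLevel := by
  obtain ⟨f, hf, hfa⟩ := hN
  obtain ⟨M, hMN, g, hg, hgf⟩ := exists_newform hN0 hf
  have : NeZero M := ⟨fun h0 => hN0 (Nat.eq_zero_of_zero_dvd (h0 ▸ hMN))⟩
  have hga : ∀ ℓ : ℕ, ℓ.Prime → ¬ ℓ ∣ N → qCoeff g ℓ = (W.apOfModel ℓ : ℂ) := fun ℓ hℓ hℓN => by
    rw [hgf ℓ hℓ hℓN]
    exact hfa ℓ hℓ (fun hd => hℓN (hbad ℓ hℓ hd)) hℓN
  have hsq : ∀ q : ℕ, q.Prime → ¬ q ^ 2 ∣ M := fun q hq =>
    not_sq_dvd_level_of_geo hGeo hΔ0 hss hN0 hbad hMN hg hga hq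
  have hdvd : ∀ q : ℕ, q.Prime → q ∣ M → (q : ℤ) ∣ W.Δ := fun q hq hqM =>
    dvd_disc_of_dvd_level @Fermat.Agent.S35.result hΔ0 hN0 hbad hMN hg hga hq hqM (hsq q hq)
  have hMR : M ∣ W.conductorLevel := by
    have hsf : Squarefree M := by
      rw [Nat.squarefree_iff_prime_squarefree]
      intro q hq hqq
      exact hsq q hq (by rw [sq]; exact hqq)
    rw [WeierstrassCurve.conductorLevel, Nat.radical_eq_prod_primeFactors,
      ← Nat.prod_primeFactors_of_squarefree hsf]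
    apply Finset.prod_dvd_prod_of_subset
    intro q hq
    have hqp := Nat.prime_of_mem_primeFactors hq
    exact Nat.mem_primeFactors.2 ⟨hqp,
      Int.natCast_dvd.1 (hdvd q hqp (Nat.dvd_of_mem_primeFactors hq)), Int.natAbs_ne_zero.2 hΔ0⟩
  obtain ⟨g', hg', hg'a⟩ := exists_eigenform_of_dvd hMR hg.1
  refine ⟨g', hg', fun ℓ hℓ hgood hℓR => ?_⟩
  rw [hg'a ℓ hℓ hℓR]
  exact qCoeff_eq_apOfModel W hΔ0 hg.1 N.primeFactors
    (fun r hr hrN => hga r hr (fun hd => hrN (Nat.mem_primeFactors.2 ⟨hr, hd, hN0⟩))) hℓ hgood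
    (fun hd => hgood (hdvd ℓ hℓ hd))

/-- **a semistable curve which is modular of ANY level `N > 0` is modular of its conductor level.** -/
theorem conductorLevel_of_any (hGeo : GeoAll) (W : WeierstrassCurve ℤ) (hΔ0 : W.Δ ≠ 0)
    (hss : W.IsSemistableModel) (N : ℕ) (hN0 : N ≠ 0) (hN : W.IsModularModelOfLevel N) :
    W.IsModularModelOfLevel W.conductorLevel := by
  obtain ⟨f, hf, hfa⟩ := hN
  have : NeZero N := ⟨hN0⟩
  have hR0 : N * W.conductorLevel ≠ 0 := Nat.mul_ne_zero hN0 (W.conductorLevel_pos).ne'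
  have : NeZero (N * W.conductorLevel) := ⟨hR0⟩
  obtain ⟨f', hf', hf'a⟩ := exists_eigenform_of_dvd (Dvd.intro W.conductorLevel rfl) hf
  refine conductorLevel_of_bad hGeo W hΔ0 hss (N * W.conductorLevel) hR0 ⟨f', hf', ?_⟩ ?_
  · intro ℓ hℓ hgood hℓR
    rw [hf'a ℓ hℓ hℓR]
    exact hfa ℓ hℓ hgood (fun hd => hℓR (Dvd.dvd.mul_right hd _))
  · intro ℓ hℓ hd
    exact Dvd.dvd.mul_left ((W.prime_dvd_conductorLevel_iff hΔ0 hℓ).2 hd) _

end Fermat.Agent.S45
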