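import Fermat.Agent.S45.Top.Cond
import Fermat.Agent.S36.Kum.Wire

/-!
# S45 / Top / Lvl : the interface of [TOP-A]

* `KumK` : the ONE geometric hypothesis-Prop (the Kummer form over `K₀ = ℚbar ^ I_A` at the rigid levels
  `M' * q ^ (k+1)`, `k ≥ 2`, i.e. `X₀(M' q^(k+1)) ⇉ X₀(M' q^k)`);
* `geoAll_of_kumK : KumK → GeoAll` (the exponent-one case is `S36`);
* `LvlStmt` : "semistable + modular of any level `⟹` modular of the conductor level", and
  `lvlStmt_of_kumK : KumK → LvlStmt`.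
-/

set_option autoImplicit false
set_option linter.style.haveILetI false
set_option linter.unusedSectionVars false
set_option linter.unusedVariables false

noncomputable section

open AlgebraicCurve ModularCurve

namespace Fermat.Agent.S45

open Fermat.Agent.RED hiding Kb
open Fermat.Agent.S24 Fermat.Agent.RED.TorsES
open Fermat.Agent.S36 Fermat.Agent.S36.Kum

/-- **[KUM_k]** the Kummer form at the rigid levels `M' q^k → M' q^(k+1)`, `k ≥ 2`.  The exponent `Ex` may depend on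
`q` and `k` only. -/
def KumK : Prop :=
  ∀ (q k : ℕ) [NeZero q], q.Prime → 2 ≤ k → ∃ Ex : ℕ, Ex ≠ 0 ∧
    ∀ A : ValuationSubring Kb, A.LiesOverPrime q →
      ∀ (M' : ℕ) [NeZero M'] [NeZero (M' * q ^ k)], ¬ q ∣ M' → aux q ∣ M' → ∀ m : ℕ, m.Coprime q →
        Kum36 (K0 A) (M' * q ^ k) q m Ex

/-- copy of `S36.Kum.geo36_of_kum36` for `q ^ k ∥ M₁`. -/
theorem geoK_of_kum (M₁ q p Ex k M₀ : ℕ) [NeZero M₁] [NeZero q] (hq : q.Prime) (hp : p.Prime)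
    (hpq : p ≠ q) (hk : k ≠ 0) (hM₀ : M₁ = M₀ * q ^ k) (hqM₀ : ¬ q ∣ M₀)
    (A : ValuationSubring Kb) (hA : A.LiesOverPrime q)
    (hK : ∀ (M' : ℕ) [NeZero M'] [NeZero (M' * q ^ k)], ¬ q ∣ M' → aux q ∣ M' → ∀ m : ℕ,
      m.Coprime q → Kum36 (K0 A) (M' * q ^ k) q m Ex)
    (y : JZero (M₁ * q)) (hy : ∃ k : ℕ, p ^ k • y = 0)
    (hI : ∀ τ ∈ A.inertiaSubgroupIn ℚ, τ • y = y)
    (hA' : Top.pushA M₁ q y = 0) (hB' : Top.pushB M₁ q y = 0) : Ex • y = 0 := by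
  obtain ⟨n, hn⟩ := hy
  have hM₀0 : M₀ ≠ 0 := by
    rintro rfl
    exact NeZero.ne M₁ (by rw [hM₀, zero_mul])
  haveI : NeZero (M₀ * aux q) := ⟨mul_ne_zero hM₀0 (NeZero.ne _)⟩
  haveI : NeZero (M₀ * aux q * q ^ k) := ⟨mul_ne_zero (NeZero.ne _) (pow_ne_zero _ hq.ne_zero)⟩
  have hm : p ^ n ≠ 0 := pow_ne_zero n hp.ne_zero
  have hcop : (p ^ n).Coprime q := Nat.Coprime.pow_left n ((Nat.coprime_primes hp hq).mpr hpq)
  have h1 : KumBar (A.inertiaSubgroupIn ℚ) (M₀ * aux q * q ^ k) q (p ^ n) Ex :=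
    kumBar_of_kum36 _ (K0 A) (fun x hx => mem_K0.mpr hx) _ q _ Ex hm
      (hK (M₀ * aux q) (not_dvd_mul_aux hq hqM₀) (dvd_mul_left _ _) _ hcop)
  have h2 : KumBar (A.inertiaSubgroupIn ℚ) (M₁ * aux q) q (p ^ n) Ex :=
    kumBar_congr _ (by rw [hM₀]; ring) q _ Ex h1
  have hqM : q ∣ M₁ := by
    rw [hM₀]
    exact Dvd.dvd.mul_left (dvd_pow_self q hk) _
  have h3 : KumBar (A.inertiaSubgroupIn ℚ) M₁ q (p ^ n) Ex :=
    kumBar_of_mul M₁ (aux q) q _ _ Ex hm hq hqM (not_dvd_aux hq) (card_lt_aux _ q) h2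
  exact nsmul_eq_zero_of_kumBar _ M₁ q _ Ex hm h3 y hn hI hA' hB'

/-- `KumK` gives the geometric interface at every level divisible by `q`. -/
theorem geoAll_of_kumK (h : KumK) : GeoAll := by
  intro M₁ q p _ _ hq hp hqp hqM
  by_cases hq2 : q ^ 2 ∣ M₁
  · obtain ⟨k, M₀, hqM₀, hM₀⟩ :=
      Nat.exists_eq_pow_mul_and_not_dvd (NeZero.ne M₁) q hq.one_lt.ne'
    have hk : 2 ≤ k := by
      by_contra hlt
      have hk1 : k ≤ 1 := by omega
      rw [hM₀] at hq2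
      have h1 : q ^ 2 ∣ q ^ 1 * M₀ :=
        hq2.trans (Nat.mul_dvd_mul_right (pow_dvd_pow q hk1) M₀)
      rw [pow_two, pow_one] at h1
      exact hqM₀ (Nat.dvd_of_mul_dvd_mul_left hq.pos h1)
    obtain ⟨Ex, hEx, hK⟩ := h q k hq hk
    rw [Top.geo36_iff]
    refine ⟨Ex, hEx, ?_⟩
    intro A hA y hy hI hA' hB'
    exact geoK_of_kum M₁ q p Ex k M₀ hq hp hqp.symm (by omega) (by rw [hM₀, mul_comm]) hqM₀ A hA
      (fun M' _ _ h1 h2 m hm => hK A hA M' h1 h2 m hm) y hy hI hA' hB'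
  · exact geo36_of_hasDatum hasDatum M₁ q p hq hp hqp hqM hq2

/-- **the interface consumed by [TOP-B]**. -/
def LvlStmt : Prop :=
  ∀ (W : WeierstrassCurve ℤ) (N : ℕ), N ≠ 0 → W.Δ ≠ 0 → W.IsSemistableModel →
    W.IsModularModelOfLevel N → W.IsModularModelOfLevel W.conductorLevel

theorem lvlStmt_of_geoAll (h : GeoAll) : LvlStmt := fun W N hN0 hΔ0 hss hN =>
  conductorLevel_of_any h W hΔ0 hss N hN0 hN

theorem lvlStmt_of_kumK (h : KumK) : LvlStmt := lvlStmt_of_geoAll (geoAll_of_kumK h)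

end Fermat.Agent.S45
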