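import Fermat.Agent.S45.Top.Lvl
import Fermat.Prelude.Def_WeierstrassCurve_Mlc1RowStatement

/-!
# S45 / Top : for the project ML : modular of ANY level `⟹` modular of the exact conductor level
-/

set_option autoImplicit false

namespace Fermat.Agent.S45

open WeierstrassCurve

theorem mlc1_of_lvl (hL : LvlStmt) (W : WeierstrassCurve ℤ) (hΔ : W.Δ ≠ 0)
    (hW : W.IsSemistableModel) {N : ℕ} (hN : N ≠ 0) (h : W.IsModularModelOfLevel N) :
    Mlc1IsModularModelOfExactConductorLevel W :=
  ⟨W.conductorLevel, W.conductorLevel_pos, W.squarefree_conductorLevel,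
    fun _ hq => W.prime_dvd_conductorLevel_iff hΔ hq, hL W N hN hΔ hW h⟩

end Fermat.Agent.S45
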