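import Fermat.Agent.S36.Top.Wire

/-!
# S45 / Top / S36K : Carayol's theorem (S36) for every exponent `≥ 2`, from the geometric interface

Copy of `S36.Top.s36_of_geo36`; the exponent of `q` in the level is only used through `Geo36`.
-/

set_option autoImplicit false

noncomputable section

open Polynomial IsLocalRing ModularCurve CongruenceSubgroup

namespace Fermat.Agent.S45

open Fermat.Agent.GAL Fermat.Agent.GAL.PC Fermat.Agent.GAL.EigenChar Fermat.Agent.S36.Top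
open Fermat.Agent

local notation "Qbar" => AlgebraicClosure ℚ
local notation "GQ" => (AlgebraicClosure ℚ ≃ₐ[ℚ] AlgebraicClosure ℚ)

/-- **S36 for every exponent `≥ 2`**, from the interface (GEO36) at every level divisible by `q`. -/
theorem s36K_of_geo
    (hGeo : ∀ (M₁ q p : ℕ) [NeZero M₁] [NeZero q], q.Prime → p.Prime → q ≠ p → q ∣ M₁ →
      Geo36 M₁ q p)
    {M : ℕ} [NeZero M] {g : CuspForm (CongruenceSubgroup.Gamma0 M) 2} (hg : g.IsNewform)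
    (lam : ℕ) [Fact lam.Prime]
    (S : Finset ℕ)
    (O' : Type) [CommRing O'] [IsDomain O'] [IsDiscreteValuationRing O']
    [IsAdicComplete (IsLocalRing.maximalIdeal O') O'] [Finite (IsLocalRing.ResidueField O')]
    [CharZero O'] (hlamO' : (lam : O') ∈ IsLocalRing.maximalIdeal O')
    (chig : CuspForm.heckeAlgebra M 2 (↑S : Set ℕ) →+* ℂ)
    (hchig : ∀ (ℓ : ℕ) (hℓ : ℓ.Prime) (hℓM : ¬ ℓ ∣ M) (hℓS : ℓ ∉ (↑S : Set ℕ)),
      chig (CuspForm.heckeAlgebra.T hℓ hℓM hℓS) = ModularFormClass.qCoeff g ℓ)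
    (iota : chig.range →+* O')
    (hlamS : lam ∈ S) (hMS : ∀ q : ℕ, q.Prime → q ∣ M → q ∈ S) :
    ∃ (O'' : Type) (_ : CommRing O'') (_ : IsDomain O'') (_ : IsDiscreteValuationRing O'')
      (_ : IsAdicComplete (IsLocalRing.maximalIdeal O'') O'') (_ : Finite (IsLocalRing.ResidueField O''))
      (_ : CharZero O'') (_ : Algebra O' O'') (_ : Module.Finite O' O'') (_ : IsLocalHom (algebraMap O' O'')),
      Function.Injective (algebraMap O' O'') ∧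
      ∃ ρ : GaloisRepAdic O'',
        (∀ (ℓ : ℕ) (hℓ : ℓ.Prime) (hℓM : ¬ ℓ ∣ M) (hℓS : ℓ ∉ (↑S : Set ℕ)),
          ∀ A : ValuationSubring (AlgebraicClosure ℚ), A.LiesOverPrime ℓ →
            ∀ σ : AlgebraicClosure ℚ ≃ₐ[ℚ] AlgebraicClosure ℚ, A.IsFrobeniusAt σ ℓ →
              LinearMap.charpoly (ρ.ρ σ) =
                X ^ 2 - C (algebraMap O' O'' ((iota.comp chig.rangeRestrict) (CuspForm.heckeAlgebra.T hℓ hℓM hℓS))) * X
                  + C ((ℓ : O''))) ∧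
        (∀ q : ℕ, q.Prime → q ≠ lam → q ^ 2 ∣ M → ¬ ρ.IsUnipotentOnInertiaAt q) := by
  have hlam : lam.Prime := Fact.out
  obtain ⟨O'', i1, i2, i3, i4, i5, i6, i7, i8, i9, hinj, ρ, hρ, -⟩ :=
    Final.s30 (fun _ _ _ _ _ _ _ _ _ _ _ _ h1 h2 => Fermat.Agent.RR.rhRel h1 h2) lam M S hlamS hMS
      O' hlamO' (iota.comp chig.rangeRestrict)
  refine ⟨O'', i1, i2, i3, i4, i5, i6, i7, i8, i9, hinj, ρ, hρ, ?_⟩
  intro q hq hqlam hq2M hunip
  set χ : CuspForm.heckeAlgebra M 2 (↑S : Set ℕ) →+* O'' :=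
    (algebraMap O' O'').comp (iota.comp chig.rangeRestrict) with hχdef
  have hlamO'' : (lam : O'') ∈ maximalIdeal O'' := by
    have h1 : (lam : O'') = algebraMap O' O'' (lam : O') := (map_natCast _ _).symm
    rw [h1, mem_maximalIdeal, mem_nonunits_iff]
    intro hu
    exact (mem_maximalIdeal _).mp hlamO' (isUnit_of_map_unit (algebraMap O' O'') _ hu)
  have hρ' : ∀ ℓ : ℕ, ℓ.Prime → ℓ ∉ (↑S : Set ℕ) → ∀ A : ValuationSubring Qbar,
      A.LiesOverPrime ℓ → ∀ σ : GQ, A.IsFrobeniusAt σ ℓ →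
        LinearMap.charpoly (ρ.ρ σ) = X ^ 2 - C (χ (heckeT M (↑S : Set ℕ) ℓ)) * X + C ((ℓ : O'')) := by
    intro ℓ hℓ hℓS A hA σ hσ
    have hℓM : ¬ ℓ ∣ M := fun h => hℓS (hMS ℓ hℓ h)
    rw [heckeT_eq hℓ hℓM hℓS]
    exact hρ ℓ hℓ hℓM hℓS A hA σ hσ
  -- arithmetic of the level
  have hM0 : M ≠ 0 := NeZero.ne M
  have hqM : q ∣ M := (dvd_pow_self q two_ne_zero).trans hq2M
  obtain ⟨A, hA⟩ := Fermat.Agent.S54.exists_liesOverPrime hq
  obtain ⟨M₁, rfl⟩ : ∃ M₁, M = M₁ * q := ⟨M / q, (Nat.div_mul_cancel hqM).symm⟩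
  have hM₁0 : M₁ ≠ 0 := fun h0 => NeZero.ne (M₁ * q) (by rw [h0, zero_mul])
  have : NeZero M₁ := ⟨hM₁0⟩
  have : NeZero q := ⟨hq.ne_zero⟩
  have hqM₁ : q ∣ M₁ := by
    rw [pow_two] at hq2M
    exact Nat.dvd_of_mul_dvd_mul_right hq.pos hq2M
  have hnew : ¬ g.GoodEigensystemOccursAt M₁ :=
    hg.2 M₁ (Dvd.intro _ rfl) (fun h => by
      have h1 : M₁ * 1 = M₁ * q := by rw [mul_one]; exact h
      exact hq.one_lt.ne (Nat.eq_of_mul_eq_mul_left (Nat.pos_of_ne_zero hM₁0) h1))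
  obtain ⟨t₀, ht₀, hχt₀⟩ := SS.exists_oldKiller_away hg.1 hnew S hMS chig hchig
  have hS : ∀ ℓ : ℕ, ℓ.Prime → ℓ ∉ (↑S : Set ℕ) → ¬ ℓ ∣ M₁ * q * lam := by
    intro ℓ hℓ hℓS hd
    rcases (Nat.Prime.dvd_mul hℓ).mp hd with h | h
    · exact hℓS (hMS ℓ hℓ h)
    · rw [(Nat.prime_dvd_prime_iff_eq hℓ hlam).mp h] at hℓS
      exact hℓS hlamS
  obtain ⟨e, he, hgeo⟩ := hGeo M₁ q lam hq hlam hqlam hqM₁
  have hcore := core36_of_geo36 hlam e (hgeo A hA) (↑S : Set ℕ) hS t₀ ht₀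
  obtain ⟨τ, hτ, htr⟩ := exists_trace_ne_two_hecke hlam hlamO'' hlamS hMS ρ χ hρ'
    (A.inertiaSubgroupIn ℚ) (fun τ hτ => cycEq_of_mem_inertia hlam hq hqlam hA hτ)
    ((e : MvPolynomial ℕ ℤ) * t₀) hcore (by
      rw [map_mul, map_natCast, map_mul, map_natCast]
      refine mul_ne_zero (Nat.cast_ne_zero.2 he) ?_
      intro h0
      apply hχt₀
      have h1 := (injective_iff_map_eq_zero _).1 hinj _ h0
      have h2 := (injective_iff_map_eq_zero _).1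
        (SS.injective_of_integral (SS.isIntegral_of_mem_range chig) iota) _ h1
      exact congrArg Subtype.val h2)
  exact htr (trace_eq_two_of_charpoly ρ.finrank_eq _ (hunip A hA τ hτ))



end Fermat.Agent.S45
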